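import Mathlib

/-!
# P-S56, block (A), step (a) of Fontaine's Theorem A: differentials of a commutative Hopf algebra

For a commutative Hopf algebra `A` over a commutative ring `R` (the affine algebra of an affine
group scheme `Γ` over `R`), with counit `ε`, augmentation ideal `I = ker ε` and cotangent space
at the unit section `ω = I / I²`, the module of Kähler differentials is *free on the invariant
differentials*:

  `Ω[A⁄R] ≃ₗ[A] A ⊗[R] ω`.

Here `ω` is realised as the `R`-module `Cot R A := A ⧸ (R·1 + I²)` (canonically `I / I²`, since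
`A = R·1 ⊕ I`), with its universal `ε`-derivation `toCot : A →ₗ[R] Cot R A`
(`toCot 1 = 0`, `toCot (x * y) = ε x • toCot y + ε y • toCot x`, `Cot.lift`).

* `dCot : Derivation R A (A ⊗[R] Cot R A)`, `dCot b = ∑ b₍₁₎ ⊗ toCot b₍₂₎`;
* `invForm : A →ₗ[R] Ω[A⁄R]`, `invForm x = ∑ S(x₍₁₎) • D x₍₂₎` (the invariant form attached to `x`),
  an `ε`-derivation;
* `omegaEquiv : Ω[A⁄R] ≃ₗ[A] A ⊗[R] Cot R A`, with `omegaEquiv_D` and `omegaEquiv_symm_tmul`.
-/

set_option autoImplicit false

noncomputable section

open TensorProduct Coalgebra Bialgebra HopfAlgebra KaehlerDifferential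

namespace Fermat.Agent.Lib.HopfDiff

variable (R : Type*) (A : Type*) [CommRing R] [CommRing A] [HopfAlgebra R A]

/-! ### The cotangent space at the unit section -/

/-- the augmentation ideal `I = ker ε`. -/
def augIdeal : Ideal A := RingHom.ker (counitAlgHom R A)

variable {R A} in
theorem mem_augIdeal {x : A} : x ∈ augIdeal R A ↔ counit (R := R) x = 0 := by
  rw [augIdeal, RingHom.mem_ker, counitAlgHom_apply]

variable {R A} in
theorem sub_algebraMap_counit_mem (x : A) :
    x - algebraMap R A (counit x) ∈ augIdeal R A := by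
  rw [mem_augIdeal, map_sub, counit_algebraMap, sub_self]

/-- the `R`-submodule `R·1 + I²` of `A`. -/
def cotKer : Submodule R A :=
  Submodule.span R {(1 : A)} ⊔ ((augIdeal R A) ^ 2).restrictScalars R

/-- **the cotangent space of `A` at the unit section**, `ω = A / (R·1 + I²) ≅ I / I²`. -/
def Cot : Type _ := A ⧸ cotKer R A

instance : AddCommGroup (Cot R A) := inferInstanceAs (AddCommGroup (A ⧸ cotKer R A))

instance : Module R (Cot R A) := inferInstanceAs (Module R (A ⧸ cotKer R A))

/-- the universal `ε`-derivation `A → ω`, `x ↦ [x - ε x]`. -/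
def toCot : A →ₗ[R] Cot R A := (cotKer R A).mkQ

theorem toCot_surjective : Function.Surjective (toCot R A) := Submodule.mkQ_surjective _

variable {R A}

theorem toCot_eq_zero_of_mem {x : A} (hx : x ∈ cotKer R A) : toCot R A x = 0 :=
  (Submodule.Quotient.mk_eq_zero _).mpr hx

@[simp] theorem toCot_one : toCot R A 1 = 0 :=
  toCot_eq_zero_of_mem (Submodule.mem_sup_left (Submodule.subset_span rfl))

theorem toCot_of_mem_sq {x : A} (hx : x ∈ (augIdeal R A) ^ 2) : toCot R A x = 0 :=
  toCot_eq_zero_of_mem (Submodule.mem_sup_right hx)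

@[simp] theorem toCot_algebraMap (r : R) : toCot R A (algebraMap R A r) = 0 := by
  rw [Algebra.algebraMap_eq_smul_one, map_smul, toCot_one, smul_zero]

/-- `toCot` is an `ε`-derivation. -/
theorem toCot_mul (x y : A) :
    toCot R A (x * y) = counit (R := R) x • toCot R A y + counit (R := R) y • toCot R A x := by
  have h : (x - algebraMap R A (counit x)) * (y - algebraMap R A (counit y)) ∈
      (augIdeal R A) ^ 2 := by
    rw [pow_two]
    exact Ideal.mul_mem_mul (sub_algebraMap_counit_mem x) (sub_algebraMap_counit_mem y)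
  have h0 := toCot_of_mem_sq h
  have e : (x - algebraMap R A (counit x)) * (y - algebraMap R A (counit y)) =
      x * y - counit (R := R) x • y - counit (R := R) y • x +
        algebraMap R A (counit x * counit y) := by
    rw [Algebra.smul_def, Algebra.smul_def, map_mul]
    ring
  rw [e, map_add, map_sub, map_sub, map_smul, map_smul, toCot_algebraMap, add_zero] at h0
  rw [sub_sub, sub_eq_zero] at h0
  exact h0

/-- the universal property of `toCot`. -/
def Cot.lift {M : Type*} [AddCommGroup M] [Module R M] (θ : A →ₗ[R] M) (h1 : θ 1 = 0)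
    (hmul : ∀ x y : A, θ (x * y) = counit (R := R) x • θ y + counit (R := R) y • θ x) :
    Cot R A →ₗ[R] M :=
  (cotKer R A).liftQ θ (by
    rw [cotKer, sup_le_iff]
    constructor
    · rw [Submodule.span_le]
      rintro _ rfl
      exact h1
    · intro z hz
      change z ∈ (augIdeal R A) ^ 2 at hz
      rw [pow_two] at hz
      refine Submodule.mul_induction_on hz (fun x hx y hy => ?_) (fun x y hx hy => ?_)
      · rw [LinearMap.mem_ker, hmul, mem_augIdeal.mp hx, mem_augIdeal.mp hy, zero_smul, zero_smul,
          add_zero]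
      · exact add_mem hx hy)

@[simp] theorem Cot.lift_toCot {M : Type*} [AddCommGroup M] [Module R M] (θ : A →ₗ[R] M)
    (h1 : θ 1 = 0)
    (hmul : ∀ x y : A, θ (x * y) = counit (R := R) x • θ y + counit (R := R) y • θ x) (x : A) :
    Cot.lift θ h1 hmul (toCot R A x) = θ x := rfl

/-! ### The derivation `A → A ⊗ ω` -/

/-- `id ⊗ ε : A ⊗ A → A`. -/
def idCounit : A ⊗[R] A →ₗ[R] A := (TensorProduct.rid R A).toLinearMap ∘ₗ counit.lTensor A

@[simp] theorem idCounit_tmul (x y : A) :
    idCounit (R := R) (x ⊗ₜ[R] y) = counit (R := R) y • x := by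
  simp [idCounit]

@[simp] theorem idCounit_comul (a : A) : idCounit (R := R) (comul a) = a := by
  simp [idCounit]

/-- the key computation for the Leibniz rule of `dCot`. -/
theorem lTensor_toCot_mul (s t : A ⊗[R] A) :
    (toCot R A).lTensor A (s * t) =
      idCounit s • (toCot R A).lTensor A t + idCounit t • (toCot R A).lTensor A s := by
  induction s using TensorProduct.induction_on with
  | zero => simp
  | add s₁ s₂ h₁ h₂ =>
    rw [add_mul, map_add, h₁, h₂, map_add, map_add, add_smul, smul_add]
    abel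
  | tmul x x' =>
    induction t using TensorProduct.induction_on with
    | zero => simp
    | add t₁ t₂ h₁ h₂ =>
      rw [mul_add, map_add, h₁, h₂, map_add, map_add, add_smul, smul_add]
      abel
    | tmul y y' =>
      rw [Algebra.TensorProduct.tmul_mul_tmul, LinearMap.lTensor_tmul, LinearMap.lTensor_tmul,
        LinearMap.lTensor_tmul, idCounit_tmul, idCounit_tmul, toCot_mul, tmul_add,
        TensorProduct.smul_tmul', TensorProduct.smul_tmul', tmul_smul, tmul_smul,
        TensorProduct.smul_tmul', TensorProduct.smul_tmul', smul_eq_mul, smul_eq_mul,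
        smul_mul_assoc, smul_mul_assoc, mul_comm y x]

/-- `b ↦ ∑ b₍₁₎ ⊗ [b₍₂₎ - ε b₍₂₎]`, as a linear map. -/
def dCotLin : A →ₗ[R] A ⊗[R] Cot R A := (toCot R A).lTensor A ∘ₗ comul

theorem dCotLin_mul (a b : A) :
    dCotLin (R := R) (a * b) = a • dCotLin (R := R) b + b • dCotLin (R := R) a := by
  simp only [dCotLin, LinearMap.comp_apply]
  rw [comul_mul, lTensor_toCot_mul, idCounit_comul, idCounit_comul]

variable (R A) in
/-- **the derivation `A → A ⊗ ω`**, `b ↦ ∑ b₍₁₎ ⊗ [b₍₂₎ - ε b₍₂₎]`. -/
def dCot : Derivation R A (A ⊗[R] Cot R A) := Derivation.mk' dCotLin dCotLin_mul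

theorem dCot_apply (b : A) : dCot R A b = (toCot R A).lTensor A (comul b) := rfl

/-! ### The invariant forms -/

variable (R A) in
/-- the action map `A ⊗ Ω → Ω`. -/
def smulΩ : A ⊗[R] Ω[A⁄R] →ₗ[R] Ω[A⁄R] :=
  TensorProduct.lift (Algebra.lsmul R R Ω[A⁄R]).toLinearMap

@[simp] theorem smulΩ_tmul (a : A) (w : Ω[A⁄R]) : smulΩ R A (a ⊗ₜ[R] w) = a • w := rfl

variable (R A) in
/-- `x ⊗ y ↦ S x • D y`. -/
def antipodeD : A ⊗[R] A →ₗ[R] Ω[A⁄R] :=
  smulΩ R A ∘ₗ TensorProduct.map (antipode R) (D R A).toLinearMap

@[simp] theorem antipodeD_tmul (x y : A) :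
    antipodeD R A (x ⊗ₜ[R] y) = antipode R x • D R A y := rfl

/-- `m ∘ (S ⊗ id) : A ⊗ A → A`. -/
def mulAntipode : A ⊗[R] A →ₗ[R] A := LinearMap.mul' R A ∘ₗ (antipode R).rTensor A

@[simp] theorem mulAntipode_tmul (x y : A) :
    mulAntipode (R := R) (x ⊗ₜ[R] y) = antipode R x * y := by
  simp [mulAntipode]

@[simp] theorem mulAntipode_comul (a : A) :
    mulAntipode (R := R) (comul a) = algebraMap R A (counit a) := by
  simp [mulAntipode]

theorem antipodeD_mul (s t : A ⊗[R] A) :
    antipodeD R A (s * t) =
      mulAntipode s • antipodeD R A t + mulAntipode t • antipodeD R A s := by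
  induction s using TensorProduct.induction_on with
  | zero => simp
  | add s₁ s₂ h₁ h₂ =>
    rw [add_mul, map_add, h₁, h₂, map_add, map_add, add_smul, smul_add]
    abel
  | tmul x x' =>
    induction t using TensorProduct.induction_on with
    | zero => simp
    | add t₁ t₂ h₁ h₂ =>
      rw [mul_add, map_add, h₁, h₂, map_add, map_add, add_smul, smul_add]
      abel
    | tmul y y' =>
      rw [Algebra.TensorProduct.tmul_mul_tmul, antipodeD_tmul, antipodeD_tmul, antipodeD_tmul,
        mulAntipode_tmul, mulAntipode_tmul, antipode_mul_distrib, Derivation.leibniz, smul_add,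
        smul_smul, smul_smul, smul_smul, smul_smul]
      congr 2 <;> ring

variable (R A) in
/-- **the invariant form attached to `x`**, `x ↦ ∑ S(x₍₁₎) • D x₍₂₎`. -/
def invForm : A →ₗ[R] Ω[A⁄R] := antipodeD R A ∘ₗ comul

theorem invForm_apply (x : A) : invForm R A x = antipodeD R A (comul x) := rfl

@[simp] theorem invForm_one : invForm R A 1 = 0 := by
  rw [invForm_apply, comul_one, Algebra.TensorProduct.one_def, antipodeD_tmul,
    Derivation.map_one_eq_zero, smul_zero]

theorem invForm_mul (x y : A) :
    invForm R A (x * y) =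
      counit (R := R) x • invForm R A y + counit (R := R) y • invForm R A x := by
  rw [invForm_apply, comul_mul, antipodeD_mul, mulAntipode_comul, mulAntipode_comul,
    algebraMap_smul, algebraMap_smul]
  rfl

variable (R A) in
/-- the invariant forms, as a map on the cotangent space. -/
def invFormCot : Cot R A →ₗ[R] Ω[A⁄R] := Cot.lift (invForm R A) invForm_one invForm_mul

@[simp] theorem invFormCot_toCot (x : A) : invFormCot R A (toCot R A x) = invForm R A x := rfl

/-! ### The isomorphism -/

variable (R A) in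
/-- `Ω → A ⊗ ω`. -/
def omegaToTensor : Ω[A⁄R] →ₗ[A] A ⊗[R] Cot R A := (dCot R A).liftKaehlerDifferential

@[simp] theorem omegaToTensor_D (b : A) :
    omegaToTensor R A (D R A b) = (toCot R A).lTensor A (comul b) :=
  (dCot R A).liftKaehlerDifferential_comp_D b

variable (R A) in
/-- `A ⊗ ω → Ω`. -/
def tensorToOmega : A ⊗[R] Cot R A →ₗ[A] Ω[A⁄R] := (invFormCot R A).liftBaseChange A

@[simp] theorem tensorToOmega_tmul (a : A) (w : Cot R A) :
    tensorToOmega R A (a ⊗ₜ[R] w) = a • invFormCot R A w := rfl

/-- `a ⊗ x ↦ a • invForm x` on `A ⊗ A`. -/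
theorem tensorToOmega_lTensor (s : A ⊗[R] A) :
    tensorToOmega R A ((toCot R A).lTensor A s) =
      smulΩ R A ((invForm R A).lTensor A s) := by
  induction s using TensorProduct.induction_on with
  | zero => simp
  | add s₁ s₂ h₁ h₂ => rw [map_add, map_add, h₁, h₂, map_add, map_add]
  | tmul x y => simp

/-- `x ⊗ (u ⊗ v) ↦ (x * S u) • D v`, evaluated through the associator. -/
theorem smulΩ_lTensor_antipodeD_assoc (t : A ⊗[R] A) (v : A) :
    smulΩ R A ((antipodeD R A).lTensor A (TensorProduct.assoc R A A A (t ⊗ₜ[R] v))) =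
      (LinearMap.mul' R A ((antipode R).lTensor A t)) • D R A v := by
  induction t using TensorProduct.induction_on with
  | zero => simp
  | add t₁ t₂ h₁ h₂ => rw [add_tmul, map_add, map_add, map_add, h₁, h₂, map_add, map_add, add_smul]
  | tmul x u => simp [smul_smul]

theorem smulΩ_lTensor_antipodeD_assoc_rTensor (s : A ⊗[R] A) :
    smulΩ R A ((antipodeD R A).lTensor A
      (TensorProduct.assoc R A A A (comul.rTensor A s))) =
      smulΩ R A ((D R A).toLinearMap.lTensor A
        ((Algebra.linearMap R A ∘ₗ counit).rTensor A s)) := by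
  induction s using TensorProduct.induction_on with
  | zero => simp
  | add s₁ s₂ h₁ h₂ => simp only [map_add, h₁, h₂]
  | tmul c v =>
    rw [LinearMap.rTensor_tmul, smulΩ_lTensor_antipodeD_assoc, mul_antipode_lTensor_comul_apply]
    simp

theorem tensorToOmega_omegaToTensor_D (b : A) :
    tensorToOmega R A (omegaToTensor R A (D R A b)) = D R A b := by
  rw [omegaToTensor_D, tensorToOmega_lTensor]
  have h1 : (invForm R A).lTensor A (comul b) =
      (antipodeD R A).lTensor A ((comul (R := R) (A := A)).lTensor A (comul b)) := by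
    show ((antipodeD R A ∘ₗ comul).lTensor A) (comul b) = _
    rw [LinearMap.lTensor_comp_apply]
  rw [h1, ← coassoc_apply, smulΩ_lTensor_antipodeD_assoc_rTensor]
  have h2 : ∑ i ∈ (ℛ R b).index, counit (R := R) ((ℛ R b).left i) • (ℛ R b).right i = b :=
    sum_counit_smul (ℛ R b)
  rw [← (ℛ R b).eq, map_sum, map_sum, map_sum]
  simp only [LinearMap.rTensor_tmul, LinearMap.lTensor_tmul, LinearMap.comp_apply,
    Algebra.linearMap_apply, Derivation.coeFn_coe, smulΩ_tmul, algebraMap_smul]
  conv_rhs => rw [← h2]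
  rw [map_sum]
  exact Finset.sum_congr rfl fun i _ => ((D R A).map_smul _ _).symm

/-- `u ⊗ t ↦ (S u ⊗ 1) * t`, evaluated through the associator. -/
theorem antipode_tmul_one_mul_assoc (t : A ⊗[R] A) (c : A) :
    (TensorProduct.lift ((LinearMap.mul R (A ⊗[R] A)) ∘ₗ
        ((TensorProduct.mk R A A).flip 1 ∘ₗ antipode R)))
      (TensorProduct.assoc R A A A (t ⊗ₜ[R] c)) = mulAntipode t ⊗ₜ[R] c := by
  induction t using TensorProduct.induction_on with
  | zero => simp
  | add t₁ t₂ h₁ h₂ => rw [add_tmul, map_add, map_add, h₁, h₂, map_add, add_tmul]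
  | tmul a b => simp

/-- `S u • d v = (id ⊗ toCot) ((S u ⊗ 1) * Δ v)`. -/
theorem omegaToTensor_antipodeD (s : A ⊗[R] A) :
    omegaToTensor R A (antipodeD R A s) =
      (toCot R A).lTensor A
        ((TensorProduct.lift ((LinearMap.mul R (A ⊗[R] A)) ∘ₗ
          ((TensorProduct.mk R A A).flip 1 ∘ₗ antipode R)))
          ((comul (R := R) (A := A)).lTensor A s)) := by
  induction s using TensorProduct.induction_on with
  | zero => simp
  | add s₁ s₂ h₁ h₂ => simp only [map_add, h₁, h₂]
  | tmul u v =>
    rw [antipodeD_tmul, map_smul, omegaToTensor_D, LinearMap.lTensor_tmul, TensorProduct.lift.tmul]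
    simp only [LinearMap.comp_apply, LinearMap.flip_apply, TensorProduct.mk_apply,
      LinearMap.mul_apply']
    have key : ∀ t : A ⊗[R] A, antipode R u • (toCot R A).lTensor A t =
        (toCot R A).lTensor A ((antipode R u ⊗ₜ[R] (1 : A)) * t) := by
      intro t
      induction t using TensorProduct.induction_on with
      | zero => simp
      | add t₁ t₂ h₁ h₂ => rw [map_add, smul_add, h₁, h₂, mul_add, map_add]
      | tmul a b =>
        rw [Algebra.TensorProduct.tmul_mul_tmul, one_mul, LinearMap.lTensor_tmul,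
          LinearMap.lTensor_tmul, TensorProduct.smul_tmul', smul_eq_mul]
    exact key _

theorem omegaToTensor_invForm (x : A) :
    omegaToTensor R A (invForm R A x) = (1 : A) ⊗ₜ[R] toCot R A x := by
  rw [invForm_apply, omegaToTensor_antipodeD, ← coassoc_apply]
  rw [← (ℛ R x).eq, map_sum, map_sum, map_sum, map_sum]
  simp only [LinearMap.rTensor_tmul, antipode_tmul_one_mul_assoc, mulAntipode_comul,
    LinearMap.lTensor_tmul]
  have h2 : ∑ i ∈ (ℛ R x).index, counit (R := R) ((ℛ R x).left i) • (ℛ R x).right i = x :=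
    sum_counit_smul (ℛ R x)
  conv_rhs => rw [← h2]
  rw [map_sum, tmul_sum]
  refine Finset.sum_congr rfl fun i _ => ?_
  rw [map_smul, tmul_smul, Algebra.algebraMap_eq_smul_one, TensorProduct.smul_tmul']

theorem omegaToTensor_tensorToOmega (z : A ⊗[R] Cot R A) :
    omegaToTensor R A (tensorToOmega R A z) = z := by
  induction z using TensorProduct.induction_on with
  | zero => simp
  | add z₁ z₂ h₁ h₂ => rw [map_add, map_add, h₁, h₂]
  | tmul a w =>
    obtain ⟨x, rfl⟩ := toCot_surjective R A w
    rw [tensorToOmega_tmul, invFormCot_toCot, map_smul, omegaToTensor_invForm,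
      TensorProduct.smul_tmul', smul_eq_mul, mul_one]

theorem tensorToOmega_omegaToTensor (w : Ω[A⁄R]) :
    tensorToOmega R A (omegaToTensor R A w) = w := by
  have h : w ∈ Submodule.span A (Set.range (D R A)) := by
    rw [KaehlerDifferential.span_range_derivation]; exact Submodule.mem_top
  induction h using Submodule.span_induction with
  | mem y hy =>
    obtain ⟨b, rfl⟩ := hy
    exact tensorToOmega_omegaToTensor_D b
  | zero => simp
  | add y z _ _ hy hz => rw [map_add, map_add, hy, hz]
  | smul a y _ hy => rw [map_smul, map_smul, hy]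

variable (R A) in
/-- **the differentials of a commutative Hopf algebra are free on the invariant differentials**:
`Ω[A⁄R] ≃ A ⊗ ω`. -/
def omegaEquiv : Ω[A⁄R] ≃ₗ[A] A ⊗[R] Cot R A :=
  LinearEquiv.ofLinearMap (omegaToTensor R A) (tensorToOmega R A)
    (LinearMap.ext omegaToTensor_tensorToOmega) (LinearMap.ext tensorToOmega_omegaToTensor)

@[simp] theorem omegaEquiv_D (b : A) :
    omegaEquiv R A (D R A b) = (toCot R A).lTensor A (comul b) := omegaToTensor_D b

@[simp] theorem omegaEquiv_symm_tmul (a x : A) :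
    (omegaEquiv R A).symm (a ⊗ₜ[R] toCot R A x) = a • invForm R A x := rfl

@[simp] theorem omegaEquiv_invForm (x : A) :
    omegaEquiv R A (invForm R A x) = (1 : A) ⊗ₜ[R] toCot R A x := omegaToTensor_invForm x

end Fermat.Agent.Lib.HopfDiff
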