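import Mathlib
import Fermat.Agent.Lib.HopfDiff.Omega

/-!
# P-S56, block (A), step (a) of Fontaine's Theorem A: multiplication by `n` on the cotangent space

`A` is a commutative Hopf algebra over `R`.  The algebra endomorphisms of `A` form a monoid under
convolution (`WithConv (A →ₐ[R] A)`); `mulByN n` is the `n`-th convolution power of the identity,
i.e. the comorphism of `[n] : Γ → Γ`.

* `toCot_convMul` : on the cotangent space `ω = Cot R A`, convolution of counit-preserving
  endomorphisms becomes addition;
* `toCot_mulByN` : `[n]` acts on `ω` as multiplication by `n`;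
* `nsmul_cot_eq_zero`, `nsmul_omega_eq_zero` : if `[n]` is trivial (`Γ` is killed by `n`) then
  `n • ω = 0` and `n • Ω[A⁄R] = 0`;
* `comp_mulByN` : for a point `g : A →ₐ[R] B`, `g ∘ [n] = g ^ n` in the group of points.
-/

set_option autoImplicit false

noncomputable section

open TensorProduct Coalgebra Bialgebra HopfAlgebra KaehlerDifferential WithConv

namespace Fermat.Agent.Lib.HopfDiff

variable {R : Type*} {A : Type*} [CommRing R] [CommRing A] [HopfAlgebra R A]

/-- `ε ⊗ id : A ⊗ A → A`. -/
def counitId : A ⊗[R] A →ₗ[R] A := (TensorProduct.lid R A).toLinearMap ∘ₗ counit.rTensor A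

@[simp] theorem counitId_tmul (x y : A) :
    counitId (R := R) (x ⊗ₜ[R] y) = counit (R := R) x • y := by
  simp [counitId]

@[simp] theorem counitId_comul (a : A) : counitId (R := R) (comul a) = a := by
  simp [counitId]

section Lift

variable (f g : A →ₐ[R] A) (hf : ∀ x, counit (R := R) (f x) = counit (R := R) x)
  (hg : ∀ x, counit (R := R) (g x) = counit (R := R) x)

include hf hg in
theorem toCot_lift (s : A ⊗[R] A) :
    toCot R A (Algebra.TensorProduct.lift f g (fun _ _ => .all ..) s) =
      toCot R A (f (idCounit s)) + toCot R A (g (counitId s)) := by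
  induction s using TensorProduct.induction_on with
  | zero => simp
  | add s₁ s₂ h₁ h₂ =>
    simp only [map_add, h₁, h₂]
    abel
  | tmul a b =>
    rw [Algebra.TensorProduct.lift_tmul, toCot_mul, hf, hg, idCounit_tmul, counitId_tmul,
      map_smul, map_smul, map_smul, map_smul, add_comm]

include hf hg in
theorem counit_lift (s : A ⊗[R] A) :
    counit (R := R) (Algebra.TensorProduct.lift f g (fun _ _ => .all ..) s) =
      counit (R := R) (idCounit s) := by
  induction s using TensorProduct.induction_on with
  | zero => simp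
  | add s₁ s₂ h₁ h₂ => rw [map_add, map_add, h₁, h₂, map_add, map_add]
  | tmul a b =>
    rw [Algebra.TensorProduct.lift_tmul, counit_mul, hf, hg, idCounit_tmul, map_smul,
      smul_eq_mul, mul_comm]

end Lift

/-- convolution of counit-preserving endomorphisms is counit-preserving. -/
theorem counit_convMul (f g : WithConv (A →ₐ[R] A))
    (hf : ∀ x, counit (R := R) (f.ofConv x) = counit (R := R) x)
    (hg : ∀ x, counit (R := R) (g.ofConv x) = counit (R := R) x) (x : A) :
    counit (R := R) ((f * g).ofConv x) = counit (R := R) x := by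
  have h := AlgHom.convMul_apply f g x
  rw [show (f * g).ofConv x = (f * g) x from rfl, h, counit_lift _ _ hf hg, idCounit_comul]

/-- **on the cotangent space, convolution becomes addition.** -/
theorem toCot_convMul (f g : WithConv (A →ₐ[R] A))
    (hf : ∀ x, counit (R := R) (f.ofConv x) = counit (R := R) x)
    (hg : ∀ x, counit (R := R) (g.ofConv x) = counit (R := R) x) (x : A) :
    toCot R A ((f * g).ofConv x) = toCot R A (f.ofConv x) + toCot R A (g.ofConv x) := by
  have h := AlgHom.convMul_apply f g x
  rw [show (f * g).ofConv x = (f * g) x from rfl, h, toCot_lift _ _ hf hg, idCounit_comul,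
    counitId_comul]

theorem counit_convOne (x : A) :
    counit (R := R) ((1 : WithConv (A →ₐ[R] A)).ofConv x) = counit (R := R) x := by
  rw [show (1 : WithConv (A →ₐ[R] A)).ofConv x = (1 : WithConv (A →ₐ[R] A)) x from rfl,
    AlgHom.convOne_apply, counit_algebraMap]

theorem toCot_convOne (x : A) : toCot R A ((1 : WithConv (A →ₐ[R] A)).ofConv x) = 0 := by
  rw [show (1 : WithConv (A →ₐ[R] A)).ofConv x = (1 : WithConv (A →ₐ[R] A)) x from rfl,
    AlgHom.convOne_apply, toCot_algebraMap]

theorem counit_convPow (f : WithConv (A →ₐ[R] A))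
    (hf : ∀ x, counit (R := R) (f.ofConv x) = counit (R := R) x) (n : ℕ) (x : A) :
    counit (R := R) ((f ^ n).ofConv x) = counit (R := R) x := by
  induction n generalizing x with
  | zero => rw [pow_zero]; exact counit_convOne x
  | succ n ih => rw [pow_succ]; exact counit_convMul _ _ ih hf x

/-- convolution powers become multiples on the cotangent space. -/
theorem toCot_convPow (f : WithConv (A →ₐ[R] A))
    (hf : ∀ x, counit (R := R) (f.ofConv x) = counit (R := R) x) (n : ℕ) (x : A) :
    toCot R A ((f ^ n).ofConv x) = n • toCot R A (f.ofConv x) := by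
  induction n with
  | zero => rw [pow_zero, zero_smul]; exact toCot_convOne x
  | succ n ih =>
    rw [pow_succ, toCot_convMul _ _ (counit_convPow f hf n) hf, ih, succ_nsmul]

variable (R A) in
/-- **the comorphism of multiplication by `n`** on the group scheme `Spec A`. -/
def mulByN (n : ℕ) : A →ₐ[R] A := ((toConv (AlgHom.id R A)) ^ n).ofConv

theorem counit_mulByN (n : ℕ) (x : A) :
    counit (R := R) (mulByN R A n x) = counit (R := R) x :=
  counit_convPow (toConv (AlgHom.id R A)) (fun _ => rfl) n x

/-- **`[n]` acts on the cotangent space as multiplication by `n`.** -/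
theorem toCot_mulByN (n : ℕ) (x : A) : toCot R A (mulByN R A n x) = n • toCot R A x :=
  toCot_convPow (toConv (AlgHom.id R A)) (fun _ => rfl) n x

/-- for a point `g` of the group scheme with values in `B`, `g ∘ [n] = g ^ n`. -/
theorem comp_mulByN {B : Type*} [CommRing B] [Algebra R B] (g : A →ₐ[R] B) (n : ℕ) :
    g.comp (mulByN R A n) = ((toConv g) ^ n).ofConv := by
  induction n with
  | zero =>
    rw [mulByN, pow_zero, pow_zero]
    ext x
    show g ((1 : WithConv (A →ₐ[R] A)) x) = (1 : WithConv (A →ₐ[R] B)) x
    rw [AlgHom.convOne_apply, AlgHom.convOne_apply, AlgHom.commutes]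
  | succ n ih =>
    rw [mulByN, pow_succ, pow_succ, AlgHom.comp_convMul_distrib]
    rw [mulByN] at ih
    rw [ih]
    rfl

/-- the group scheme is killed by `n`: `[n]` is the trivial endomorphism. -/
def KilledBy (R A : Type*) [CommRing R] [CommRing A] [HopfAlgebra R A] (n : ℕ) : Prop :=
  (toConv (AlgHom.id R A)) ^ n = (1 : WithConv (A →ₐ[R] A))

theorem KilledBy.mulByN_apply {n : ℕ} (h : KilledBy R A n) (x : A) :
    mulByN R A n x = algebraMap R A (counit x) := by
  rw [mulByN, h]
  rfl

/-- **if `Γ` is killed by `n` then `n • ω = 0`.** -/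
theorem KilledBy.nsmul_cot_eq_zero {n : ℕ} (h : KilledBy R A n) (w : Cot R A) : n • w = 0 := by
  obtain ⟨x, rfl⟩ := toCot_surjective R A w
  rw [← toCot_mulByN, h.mulByN_apply, toCot_algebraMap]

/-- **if `Γ` is killed by `n` then `n • Ω[A⁄R] = 0`.** -/
theorem KilledBy.nsmul_omega_eq_zero {n : ℕ} (h : KilledBy R A n) (w : Ω[A⁄R]) : n • w = 0 := by
  apply (omegaEquiv R A).injective
  rw [map_nsmul, map_zero]
  generalize omegaEquiv R A w = z
  induction z using TensorProduct.induction_on with
  | zero => simp
  | add z₁ z₂ h₁ h₂ => rw [nsmul_add, h₁, h₂, add_zero]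
  | tmul a c =>
    have e : n • (a ⊗ₜ[R] c) = a ⊗ₜ[R] (n • c) := by
      rw [← Nat.cast_smul_eq_nsmul R, ← Nat.cast_smul_eq_nsmul R n c, tmul_smul]
    rw [e, h.nsmul_cot_eq_zero, tmul_zero]

end Fermat.Agent.Lib.HopfDiff
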