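import Mathlib
import Fermat.Agent.Lib.HopfDiff.MulByN

/-!
# P-S56, block (A), step (a) of Fontaine's Theorem A: `Ω` is free over `A / pA`

`A` is a commutative Hopf algebra over `R`, finite as an `R`-module, killed by `p`, and
`R / pR` is a field (`R = ℤ_p` or `ℤ_(p)`: the case `e = 1`, `n = 1` of Fontaine's Theorem A).
Then `ω` is a finite dimensional vector space over `R / pR` and

  `Ω[A⁄R] ≃ₗ[A] (A / pA)^d`,  `d = dim ω`.
-/

set_option autoImplicit false
set_option linter.style.haveILetI false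

noncomputable section

open TensorProduct Coalgebra Bialgebra HopfAlgebra KaehlerDifferential

namespace Fermat.Agent.Lib.HopfDiff

variable {R : Type*} {A : Type*} [CommRing R] [CommRing A] [HopfAlgebra R A]

instance cot_finite [Module.Finite R A] : Module.Finite R (Cot R A) :=
  Module.Finite.of_surjective (toCot R A) (toCot_surjective R A)

theorem KilledBy.isTorsionBySet_cot {p : ℕ} (h : KilledBy R A p) :
    Module.IsTorsionBySet R (Cot R A) (Ideal.span {(p : R)} : Ideal R) := by
  rw [Module.isTorsionBySet_span_singleton_iff]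
  intro w
  rw [Nat.cast_smul_eq_nsmul]
  exact h.nsmul_cot_eq_zero w

/-- **`ω` is free over `R / I`** when it is killed by `I` and `R / I` is a field:
an `R`-linear isomorphism `ω ≃ (R / I)^d`. -/
theorem exists_cot_equiv_pi [Module.Finite R A] (I : Ideal R) [I.IsMaximal]
    (hT : Module.IsTorsionBySet R (Cot R A) (I : Set R)) :
    ∃ d : ℕ, Nonempty (Cot R A ≃ₗ[R] (Fin d → R ⧸ I)) := by
  letI : Module (R ⧸ I) (Cot R A) := hT.module
  haveI : IsScalarTower R (R ⧸ I) (Cot R A) := hT.isScalarTower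
  letI : Field (R ⧸ I) := Ideal.Quotient.field I
  haveI : Module.Finite (R ⧸ I) (Cot R A) := Module.Finite.of_restrictScalars_finite R _ _
  exact ⟨_, ⟨(Module.finBasis (R ⧸ I) (Cot R A)).equivFun.restrictScalars R⟩⟩

/-- **`Ω[A⁄R]` is free over `A / I A`** (Hopf algebra killed by `I`, `R / I` a field). -/
theorem exists_omega_equiv_pi [Module.Finite R A] (I : Ideal R) [I.IsMaximal]
    (hT : Module.IsTorsionBySet R (Cot R A) (I : Set R)) :
    ∃ d : ℕ, Nonempty (Ω[A⁄R] ≃ₗ[A] (Fin d → A ⧸ I.map (algebraMap R A))) := by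
  obtain ⟨d, ⟨e⟩⟩ := exists_cot_equiv_pi I hT
  refine ⟨d, ⟨?_⟩⟩
  exact omegaEquiv R A ≪≫ₗ
    TensorProduct.AlgebraTensorModule.congr (LinearEquiv.refl A A) e ≪≫ₗ
    TensorProduct.piRight R A A (fun _ : Fin d => R ⧸ I) ≪≫ₗ
    LinearEquiv.piCongrRight (fun _ => (Ideal.qoutMapEquivTensorQout A (I := I)).symm)

/-- **Fontaine, Thm A, step (a)** for `e = 1`, `n = 1`: if the finite commutative group scheme
`Spec A` over `R` is killed by `p` and `R / pR` is a field, then `Ω[A⁄R]` is a free module of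
finite rank over `A / pA`. -/
theorem KilledBy.exists_omega_equiv_pi [Module.Finite R A] {p : ℕ} (h : KilledBy R A p)
    [hmax : (Ideal.span {(p : R)} : Ideal R).IsMaximal] :
    ∃ d : ℕ, Nonempty (Ω[A⁄R] ≃ₗ[A] (Fin d → A ⧸ (Ideal.span {(p : A)} : Ideal A))) := by
  obtain ⟨d, ⟨e⟩⟩ := Fermat.Agent.Lib.HopfDiff.exists_omega_equiv_pi
    (Ideal.span {(p : R)} : Ideal R) h.isTorsionBySet_cot
  have hI : (Ideal.span {(p : R)} : Ideal R).map (algebraMap R A) = Ideal.span {(p : A)} := by
    rw [Ideal.map_span, Set.image_singleton, map_natCast]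
  refine ⟨d, ⟨e ≪≫ₗ LinearEquiv.piCongrRight fun _ => ?_⟩⟩
  exact Submodule.quotEquivOfEq _ _ hI

end Fermat.Agent.Lib.HopfDiff
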